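import Fermat.Agent.HGAssembly.Point

/-!
S34 from `HeckeGaloisModule`s on which inertia at primes `q || N`, `q ≠ p`, is unipotent of
level two.
-/

set_option autoImplicit false

open scoped TensorProduct
open Polynomial IsLocalRing

namespace Fermat.Agent.HGAssembly

open Fermat.Agent.QuadRep Fermat.Agent.HGModule Fermat.Agent.HeckeGal

local notation "G" => (AlgebraicClosure ℚ ≃ₐ[ℚ] AlgebraicClosure ℚ)

theorem trace_eq_of_charpoly {A V : Type*} [CommRing A] [Nontrivial A] [AddCommGroup V]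
    [Module A V] [Module.Free A V] [Module.Finite A V] (hV : Module.finrank A V = 2)
    (f : Module.End A V) {t d : A}
    (h : LinearMap.charpoly f = X ^ 2 - C t * X + C d) : LinearMap.trace A V f = t := by
  rw [FrobDensity.charpoly_eq_of_finrank hV] at h
  have h8 := congrArg (fun q : A[X] => q.coeff 1) h
  simpa [coeff_X_pow, coeff_C] using h8

theorem eq_two_of_unipotent {O Λ : Type*} [CommRing O] [IsDomain O] [AddCommGroup Λ]
    [Module O Λ] [Module.Free O Λ] [Module.Finite O Λ] [Nontrivial Λ] (x y : Module.End O Λ) (t : O)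
    (hxy : x * y = 1) (hu : (x - 1) * (x - 1) = 0) (hrel : x + y = t • (1 : Module.End O Λ)) :
    t = 2 := by
  have h4 := congrArg (· * y) hu
  simp only [zero_mul] at h4
  have h5 : (x - 1) * (x - 1) * y = x + y - (1 + 1) := by
    have : (x - 1) * (x - 1) * y = x * (x * y) - x * y - x * y + y := by noncomm_ring
    rw [this, hxy, mul_one]
    noncomm_ring
  rw [h5, sub_eq_zero, hrel] at h4
  let b := Module.finBasis O Λ
  have hr : 0 < Module.finrank O Λ := Module.finrank_pos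
  have h7 := congrArg (fun f : Module.End O Λ => b.repr (f (b ⟨0, hr⟩)) ⟨0, hr⟩) h4
  simp at h7
  rw [h7]; norm_num

/-- The representation at a point, with unipotent inertia. -/
theorem exists_pointRep_unipotent {p : ℕ} [Fact p.Prime] {N : ℕ} [NeZero N] {S : Finset ℕ}
    (hpS : p ∈ S) (hNS : ∀ q : ℕ, q.Prime → q ∣ N → q ∈ S)
    (D : HeckeGaloisModule p N (↑S : Set ℕ))
    (pt : PAdicPoint p (CuspForm.heckeAlgebra N 2 (↑S : Set ℕ))) :
    ∃ R : PointRep p N S pt, ∀ q : ℕ, q.Prime → q ≠ p →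
      ∀ A : ValuationSubring (AlgebraicClosure ℚ), A.LiesOverPrime q →
      ∀ σ ∈ A.inertiaSubgroupIn ℚ, (D.ρ σ - 1) * (D.ρ σ - 1) = 0 →
        LinearMap.trace R.O R.ρ.V (R.ρ.ρ σ) = 2 := by
  classical
  obtain ⟨Λ, i1, i2, i3, i4, i5, ρ, hcont, hfrob, hunr, hunip⟩ :=
    exists_lattice_rep_strong D pt.O pt.mem_maximalIdeal pt.χ
  let a : ℕ → pt.O := fun ℓ => if h : ℓ.Prime ∧ ¬ ℓ ∣ N ∧ ℓ ∉ (↑S : Set ℕ) then
    pt.χ (CuspForm.heckeAlgebra.T h.1 h.2.1 h.2.2) else 0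
  have ha : ∀ (ℓ : ℕ) (hℓ : ℓ.Prime) (hℓN : ¬ ℓ ∣ N) (hℓS : ℓ ∉ (↑S : Set ℕ)),
      a ℓ = pt.χ (CuspForm.heckeAlgebra.T hℓ hℓN hℓS) := fun ℓ hℓ hℓN hℓS =>
    dif_pos ⟨hℓ, hℓN, hℓS⟩
  obtain ⟨O₂, j1, j2, j3, j4, j5, j6, j7, j8, j9, hinj, ρ', t, ht, hchar, h1, h2⟩ :=
    exists_galoisRepAdic_strong p pt.O pt.mem_maximalIdeal Λ ρ hcont S hpS a (by
      intro ℓ hℓ hℓS A hA τ hτ
      have hℓN : ¬ ℓ ∣ N := fun h => hℓS (hNS ℓ hℓ h)
      have hℓS' : ℓ ∉ (↑S : Set ℕ) := fun h => hℓS (Finset.mem_coe.mp h)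
      rw [ha ℓ hℓ hℓN hℓS']
      exact hfrob ℓ hℓ hℓN hℓS' (fun e => hℓS (e ▸ hpS)) A hA τ hτ)
  refine ⟨{ O := O₂
            φ := algebraMap pt.O O₂
            isLocalHom := j9
            injective := hinj
            ρ := ρ'
            charpoly_frob := ?_
            unramified := ?_ }, ?_⟩
  · intro ℓ hℓ hℓN hℓS A hA σ hσ
    rw [h1 ℓ hℓ (fun h => hℓS (Finset.mem_coe.mpr h)) A hA σ hσ, ha ℓ hℓ hℓN hℓS]
  · intro q hq hqN hqp
    exact h2 q hq hqp (fun P hP σ hσ => hunr q hq hqN hqp P hP σ hσ)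
  · intro q hq hqp A hA σ hσ hu
    show LinearMap.trace O₂ ρ'.V (ρ'.ρ σ) = 2
    have hu' := hunip σ hu
    have hcyc : cyc p pt.O pt.mem_maximalIdeal σ = 1 :=
      cyc_inertia pt.mem_maximalIdeal hq hqp hA hσ
    have hrel := ht σ
    rw [hcyc, one_smul] at hrel
    have hinv : ρ σ * ρ σ⁻¹ = 1 := by rw [← map_mul, mul_inv_cancel, map_one]
    have h6 : t σ = 2 := eq_two_of_unipotent (ρ σ) (ρ σ⁻¹) (t σ) hinv hu' hrel
    have h8 := trace_eq_of_charpoly ρ'.finrank_eq _ (hchar σ)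
    rw [h6, map_ofNat] at h8
    exact h8

variable {p : ℕ} {N : ℕ} [NeZero N] {S : Finset ℕ}
  {𝒪 : Type} [CommRing 𝒪] [IsDomain 𝒪] [IsDiscreteValuationRing 𝒪]
  [IsAdicComplete (IsLocalRing.maximalIdeal 𝒪) 𝒪]
  {θ : CuspForm.heckeAlgebra N 2 (↑S : Set ℕ) →+* IsLocalRing.ResidueField 𝒪}
  {T : Type} [CommRing T] [IsLocalRing T] [IsNoetherianRing T]
  [IsAdicComplete (IsLocalRing.maximalIdeal T) T] [Algebra 𝒪 T] [IsLocalHom (algebraMap 𝒪 T)]
  [Module.Finite 𝒪 T] [Module.Free 𝒪 T]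

/-- **S34 from the interface**. -/
theorem isUnipotentOnInertiaAt_of_module [Fact p.Prime] (D : HeckeGaloisModule p N (↑S : Set ℕ))
    (hp𝒪 : (p : 𝒪) ∈ IsLocalRing.maximalIdeal 𝒪) (hpS : p ∈ S)
    (hNS : ∀ q : ℕ, q.Prime → q ∣ N → q ∈ S)
    (H : CuspForm.HeckeGaloisRepDatum N (↑S : Set ℕ) 𝒪 θ T)
    {q : ℕ} (hq : q.Prime) (hqp : q ≠ p)
    (hD : ∀ A : ValuationSubring (AlgebraicClosure ℚ), A.LiesOverPrime q →
      ∀ σ ∈ A.inertiaSubgroupIn ℚ, (D.ρ σ - 1) * (D.ρ σ - 1) = 0) :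
    H.ρ.IsUnipotentOnInertiaAt q := by
  choose R hR using exists_pointRep_unipotent hpS hNS D
  exact isUnipotentOnInertiaAt_of_points Fact.out hp𝒪 hpS hNS H hq hqp R
    (fun pt A hA σ hσ => hR pt q hq hqp A hA σ hσ (hD A hA σ hσ))

end Fermat.Agent.HGAssembly
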