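import Fermat.Agent.HeckeGal.S31FromS30
import Fermat.Agent.QuadRep.Cyclo
import Fermat.Prelude.Def_GaloisRep_LocalConditions

/-!
Traces and determinants of the universal Galois representation from those at points.
-/

set_option autoImplicit false

open Polynomial IsLocalRing

namespace Fermat.Agent.HGAssembly

open Fermat.Agent.HeckeGal Fermat.Agent.QuadRep

local notation "G" => (AlgebraicClosure ℚ ≃ₐ[ℚ] AlgebraicClosure ℚ)

theorem det_sub_mem {A V : Type*} [CommRing A] [Nontrivial A] [AddCommGroup V] [Module A V]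
    [Module.Free A V] [Module.Finite A V] (hV : Module.finrank A V = 2) (I : Ideal A)
    (f g : Module.End A V) (h : ∀ v, f v - g v ∈ I • (⊤ : Submodule A V)) :
    LinearMap.det f - LinearMap.det g ∈ I := by
  have h1 := FrobDensity.charpoly_map_eq I f g h
  rw [FrobDensity.charpoly_eq_of_finrank hV f, FrobDensity.charpoly_eq_of_finrank hV g] at h1
  have h2 := congrArg (fun q : (A ⧸ I)[X] => q.coeff 0) h1
  simp at h2
  exact Ideal.Quotient.eq.mp h2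

section Det

variable {p : ℕ} [Fact p.Prime] {T : Type} [CommRing T] [IsLocalRing T]
  [IsAdicComplete (maximalIdeal T) T]

/-- The determinant is the cyclotomic character. -/
theorem det_eq_cyc (hp : (p : T) ∈ maximalIdeal T) (ρ : GaloisRepAdic T) (S : Finset ℕ)
    (hpS : p ∈ S)
    (hdet : ∀ ℓ : ℕ, ℓ.Prime → ℓ ∉ S → ∀ A : ValuationSubring (AlgebraicClosure ℚ),
      A.LiesOverPrime ℓ → ∀ τ : G, A.IsFrobeniusAt τ ℓ → LinearMap.det (ρ.ρ τ) = (ℓ : T))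
    (σ : G) : LinearMap.det (ρ.ρ σ) = cyc p T hp σ := by
  refine eq_of_forall_sub_mem_pow fun n => ?_
  obtain ⟨L₁, hL₁, h₁⟩ := ρ.isAdicContinuous n
  obtain ⟨L₂, hL₂, h₂⟩ := exists_finite_cyc (O := T) hp n
  have hfin : FiniteDimensional ℚ (L₁ ⊔ L₂ : IntermediateField ℚ (AlgebraicClosure ℚ)) :=
    IntermediateField.finiteDimensional_sup _ _
  obtain ⟨ℓ, hℓ, hℓS, A, hA, -, τ, hτ, ⟨j, hj⟩, -⟩ :=
    FrobDensity.exists_frobenius_pow_eq (L₁ ⊔ L₂) hfin σ S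
  have h3 : LinearMap.det (ρ.ρ σ) - LinearMap.det (ρ.ρ (τ ^ j)) ∈ maximalIdeal T ^ n := by
    refine det_sub_mem ρ.finrank_eq _ _ _ ?_
    exact sub_mem_of_forall_eq ρ n L₁ h₁ σ (τ ^ j) fun x hx => hj x (le_sup_left (b := L₂) hx)
  have h4 : LinearMap.det (ρ.ρ (τ ^ j)) = cyc p T hp (τ ^ j) := by
    have hℓp : ℓ ≠ p := fun e => hℓS (e ▸ hpS)
    rw [map_pow, map_pow, hdet ℓ hℓ hℓS A hA τ hτ, map_pow, cyc_frobenius hp hℓ hℓp hA hτ]
  have h5 : cyc p T hp (τ ^ j) - cyc p T hp σ ∈ maximalIdeal T ^ n := by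
    have h6 : cyc p T hp ((τ ^ j)⁻¹ * σ) - 1 ∈ maximalIdeal T ^ n := by
      refine h₂ _ fun x hx => ?_
      have h7 := hj x (le_sup_right (a := L₁) hx)
      show (τ ^ j)⁻¹ (σ x) = x
      rw [← h7]
      exact (τ ^ j).symm_apply_apply x
    have h8 : cyc p T hp (τ ^ j) - cyc p T hp σ =
        -(cyc p T hp (τ ^ j) * (cyc p T hp ((τ ^ j)⁻¹ * σ) - 1)) := by
      rw [mul_sub, mul_one, ← map_mul, mul_inv_cancel_left]; ring
    rw [h8]
    exact neg_mem (Ideal.mul_mem_left _ _ h6)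
  rw [h4] at h3
  have := Ideal.add_mem _ h3 h5
  rwa [sub_add_sub_cancel] at this

end Det

variable {p : ℕ} {N : ℕ} [NeZero N] {S : Finset ℕ}
  {𝒪 : Type} [CommRing 𝒪] [IsDomain 𝒪] [IsDiscreteValuationRing 𝒪]
  [IsAdicComplete (IsLocalRing.maximalIdeal 𝒪) 𝒪]
  {θ : CuspForm.heckeAlgebra N 2 (↑S : Set ℕ) →+* IsLocalRing.ResidueField 𝒪}
  {T : Type} [CommRing T] [IsLocalRing T] [IsNoetherianRing T]
  [IsAdicComplete (IsLocalRing.maximalIdeal T) T] [Algebra 𝒪 T] [IsLocalHom (algebraMap 𝒪 T)]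
  [Module.Finite 𝒪 T] [Module.Free 𝒪 T]

/-- Traces are detected by points. -/
theorem trace_eq_of_points (hp : p.Prime)
    (hp𝒪 : (p : 𝒪) ∈ IsLocalRing.maximalIdeal 𝒪)
    (hNS : ∀ q : ℕ, q.Prime → q ∣ N → q ∈ S)
    (H : CuspForm.HeckeGaloisRepDatum N (↑S : Set ℕ) 𝒪 θ T)
    (R : ∀ pt : PAdicPoint p (CuspForm.heckeAlgebra N 2 (↑S : Set ℕ)), PointRep p N S pt)
    (σ : G) (c : CuspForm.heckeAlgebra N 2 (↑S : Set ℕ))
    (hσ : ∀ pt, LinearMap.trace (R pt).O (R pt).ρ.V ((R pt).ρ.ρ σ) = (R pt).φ (pt.χ c)) :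
    LinearMap.trace T H.ρ.V (H.ρ.ρ σ) = H.π c := by
  have hfact : Fact p.Prime := ⟨hp⟩
  have hfin := Period.finite_heckeAlgebra N 2 (↑S : Set ℕ)
  have hred := isReduced_heckeAlgebra (N := N) hNS
  obtain ⟨ι, hι, pt, hpt⟩ :=
    exists_separating_points p (CuspForm.heckeAlgebra N 2 (↑S : Set ℕ))
  have hNS' : ∀ ℓ : ℕ, ℓ.Prime → ℓ ∉ S → ¬ ℓ ∣ N := fun ℓ hℓ hℓS hℓN => hℓS (hNS ℓ hℓ hℓN)
  have hpT : (p : T) ∈ maximalIdeal T := by
    have h1 : (p : T) = algebraMap 𝒪 T (p : 𝒪) := by rw [map_natCast]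
    rw [h1]
    exact map_nonunit (algebraMap 𝒪 T) _ hp𝒪
  have hmem : LinearMap.trace T H.ρ.V (H.ρ.ρ σ) - H.π c ∈ (⨅ n : ℕ, maximalIdeal T ^ n) := by
    rw [Ideal.mem_iInf]
    intro n
    obtain ⟨m, hm⟩ := hpt n
    have hk : ∀ i, ∃ k : ℕ, ∀ x ∈ maximalIdeal (R (pt i)).O ^ k, (p : (R (pt i)).O) ^ m ∣ x :=
      fun i => exists_pow_le_span (pow_ne_zero m (Nat.cast_ne_zero.2 hp.ne_zero))
    choose k hk using hk
    have happ := exists_approx S (fun ℓ hℓ hℓS =>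
        (CuspForm.heckeAlgebra.T hℓ (hNS' ℓ hℓ hℓS) (by exact_mod_cast hℓS) :
          CuspForm.heckeAlgebra N 2 (↑S : Set ℕ))) H.ρ H.π n
      (fun ℓ hℓ hℓS P hP τ hτ => H.charpoly_frob ℓ hℓ (hNS' ℓ hℓ hℓS) _ P hP τ hτ)
      (fun i => (R (pt i)).O) (fun i => (R (pt i)).ρ) (fun i => ((R (pt i)).φ.comp (pt i).χ)) k
      (fun i ℓ hℓ hℓS P hP τ hτ => (R (pt i)).charpoly_frob ℓ hℓ (hNS' ℓ hℓ hℓS) _ P hP τ hτ)
    obtain ⟨t, ht0, ht⟩ := happ σ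
    have hdiv : (p : CuspForm.heckeAlgebra N 2 (↑S : Set ℕ)) ^ n ∣ c - t := by
      refine hm _ fun i => ?_
      have h1 := ht i
      rw [hσ (pt i)] at h1
      have h1' : (R (pt i)).φ ((pt i).χ (c - t)) ∈ maximalIdeal (R (pt i)).O ^ k i := by
        rw [map_sub, map_sub]; exact h1
      have h2 := hk i _ h1'
      have h3 := (R (pt i)).isLocalHom
      refine dvd_of_algebraMap_dvd (R (pt i)).φ (R (pt i)).injective ?_
      rw [map_pow, map_natCast]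
      exact h2
    obtain ⟨d, hd⟩ := hdiv
    have h4 : H.π c - H.π t ∈ maximalIdeal T ^ n := by
      rw [← map_sub, hd, map_mul, map_pow, map_natCast]
      exact Ideal.mul_mem_right _ _ (Ideal.pow_mem_pow hpT n)
    have h5 := Ideal.sub_mem _ ht0 h4
    rwa [sub_sub_sub_cancel_right] at h5
  rw [Ideal.iInf_pow_eq_bot_of_isLocalRing _ (Ideal.IsPrime.ne_top inferInstance)] at hmem
  exact sub_eq_zero.mp hmem

theorem det_universal (hp : p.Prime)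
    (hp𝒪 : (p : 𝒪) ∈ IsLocalRing.maximalIdeal 𝒪) (hpS : p ∈ S)
    (hNS : ∀ q : ℕ, q.Prime → q ∣ N → q ∈ S)
    (H : CuspForm.HeckeGaloisRepDatum N (↑S : Set ℕ) 𝒪 θ T)
    {q : ℕ} (hq : q.Prime) (hqp : q ≠ p)
    {A : ValuationSubring (AlgebraicClosure ℚ)} (hA : A.LiesOverPrime q)
    {σ : G} (hσ : σ ∈ A.inertiaSubgroupIn ℚ) :
    LinearMap.det (H.ρ.ρ σ) = 1 := by
  have hfact : Fact p.Prime := ⟨hp⟩
  have hpT : (p : T) ∈ maximalIdeal T := by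
    have h1 : (p : T) = algebraMap 𝒪 T (p : 𝒪) := by rw [map_natCast]
    rw [h1]
    exact map_nonunit (algebraMap 𝒪 T) _ hp𝒪
  have hNS' : ∀ ℓ : ℕ, ℓ.Prime → ℓ ∉ S → ¬ ℓ ∣ N := fun ℓ hℓ hℓS hℓN => hℓS (hNS ℓ hℓ hℓN)
  rw [det_eq_cyc hpT H.ρ S hpS ?_ σ, cyc_inertia hpT hq hqp hA hσ]
  intro ℓ hℓ hℓS B hB τ hτ
  have h1 := H.charpoly_frob ℓ hℓ (hNS' ℓ hℓ hℓS) (by exact_mod_cast hℓS) B hB τ hτ
  rw [FrobDensity.charpoly_eq_of_finrank H.ρ.finrank_eq] at h1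
  have h2 := congrArg (fun q : T[X] => q.coeff 0) h1
  simpa using h2

/-- S34-type conclusion from the corresponding statement at points. -/
theorem isUnipotentOnInertiaAt_of_points (hp : p.Prime)
    (hp𝒪 : (p : 𝒪) ∈ IsLocalRing.maximalIdeal 𝒪) (hpS : p ∈ S)
    (hNS : ∀ q : ℕ, q.Prime → q ∣ N → q ∈ S)
    (H : CuspForm.HeckeGaloisRepDatum N (↑S : Set ℕ) 𝒪 θ T)
    {q : ℕ} (hq : q.Prime) (hqp : q ≠ p)
    (R : ∀ pt : PAdicPoint p (CuspForm.heckeAlgebra N 2 (↑S : Set ℕ)), PointRep p N S pt)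
    (hR : ∀ pt, ∀ A : ValuationSubring (AlgebraicClosure ℚ), A.LiesOverPrime q →
      ∀ σ ∈ A.inertiaSubgroupIn ℚ,
        LinearMap.trace (R pt).O (R pt).ρ.V ((R pt).ρ.ρ σ) = 2) :
    H.ρ.IsUnipotentOnInertiaAt q := by
  intro A hA σ hσ
  have h1 := det_universal hp hp𝒪 hpS hNS H hq hqp hA hσ
  have h2 := trace_eq_of_points hp hp𝒪 hNS H R σ 2 (fun pt => by
    rw [hR pt A hA σ hσ, map_ofNat, map_ofNat])
  rw [FrobDensity.charpoly_eq_of_finrank H.ρ.finrank_eq, h1, h2, map_ofNat, map_one]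
  ring_nf
  simp only [map_ofNat]

end Fermat.Agent.HGAssembly
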