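import Fermat.Agent.HGModule.Point
import Fermat.Agent.HGAssembly.Trace

/-!
Points: lattice representations with extra relations, and the two-dimensional representation with
its characteristic polynomials at all elements.
-/

set_option autoImplicit false

open scoped TensorProduct
open Polynomial IsLocalRing

namespace Fermat.Agent.HGAssembly

open Fermat.Agent.QuadRep Fermat.Agent.HGModule Fermat.Agent.HeckeGal

local notation "G" => (AlgebraicClosure ℚ ≃ₐ[ℚ] AlgebraicClosure ℚ)

section Main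

variable {p : ℕ} [Fact p.Prime] {N : ℕ} [NeZero N] {S : Set ℕ} (D : HeckeGaloisModule p N S)
  (O : Type) [CommRing O] [IsDomain O] [IsDiscreteValuationRing O]
  [IsAdicComplete (maximalIdeal O) O] [CharZero O]

include D in
theorem exists_lattice_rep_strong (hp : (p : O) ∈ maximalIdeal O)
    (χ : CuspForm.heckeAlgebra N 2 S →+* O) :
    ∃ (Λ : Type) (_ : AddCommGroup Λ) (_ : Module O Λ) (_ : Module.Free O Λ)
      (_ : Module.Finite O Λ) (_ : Nontrivial Λ) (ρ : G →* Module.End O Λ),
      GaloisActionIsAdicContinuous O ρ ∧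
      (∀ (ℓ : ℕ) (hℓ : ℓ.Prime) (hℓN : ¬ ℓ ∣ N) (hℓS : ℓ ∉ S), ℓ ≠ p →
        ∀ A : ValuationSubring (AlgebraicClosure ℚ), A.LiesOverPrime ℓ → ∀ τ : G,
          A.IsFrobeniusAt τ ℓ → ρ τ ^ 2 - χ (CuspForm.heckeAlgebra.T hℓ hℓN hℓS) • ρ τ
            + (ℓ : O) • (1 : Module.End O Λ) = 0) ∧
      (∀ q : ℕ, q.Prime → ¬ q ∣ N → q ≠ p → ∀ A : ValuationSubring (AlgebraicClosure ℚ),
        A.LiesOverPrime q → ∀ σ ∈ A.inertiaSubgroupIn ℚ, ρ σ = 1) ∧
      (∀ σ : G, (D.ρ σ - 1) * (D.ρ σ - 1) = 0 → (ρ σ - 1) * (ρ σ - 1) = 0) := by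
  let K := FractionRing O
  have : CharZero K := charZero_field O K
  let _ : Algebra ℤ_[p] O := (padicHom p O hp).toAlgebra
  have htow : IsScalarTower ℤ_[p] O K := inferInstance
  have hloc : IsLocalHom (algebraMap ℤ_[p] O) := isLocalHom_of_natCast_mem hp _
  have hinj : Function.Injective (algebraMap O K) := IsFractionRing.injective O K
  let χ' : CuspForm.heckeAlgebra N 2 S →+* K := (algebraMap O K).comp χ
  let W := eig D χ'
  have hmapK : ∀ t, (Q D t).map (Int.castRingHom K) =
      ((Q D t).map (algebraMap ℤ ℤ_[p])).map (algebraMap ℤ_[p] K) := by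
    intro t
    ext i j
    simp
  have hmapO : ∀ t, (Q D t).map (Int.castRingHom O) =
      ((Q D t).map (algebraMap ℤ ℤ_[p])).map (algebraMap ℤ_[p] O) := by
    intro t
    ext i j
    simp
  have hW : ∀ g, ∀ w ∈ W, act (P D) K g w ∈ W := by
    intro g w hw
    rw [mem_eig]
    intro t
    have hw' := hw t
    rw [act_apply, Matrix.mulVec_mulVec, hmapK, ← Matrix.map_mul, Q_commute, Matrix.map_mul,
      ← hmapK, ← Matrix.mulVec_mulVec, hw', Matrix.mulVec_smul]
  -- the lattice is nonzero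
  have hnt : Nontrivial (lat O W) := by
    obtain ⟨w, hw0, hw⟩ := exists_eigenvector (Q D) (Q_injective D) χ'
    obtain ⟨d, hd⟩ := IsLocalization.exist_integer_multiples_of_finite (nonZeroDivisors O) w
    choose z hz using hd
    have hd0 : algebraMap O K d ≠ 0 := by
      intro h
      exact nonZeroDivisors.coe_ne_zero d (hinj (by rw [h, map_zero]))
    have hz' : incl O K (rk D) z = algebraMap O K d • w := by
      ext j
      rw [incl_apply, hz j, Algebra.smul_def]
      rfl
    have hzW : z ∈ lat O W := by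
      change incl O K (rk D) z ∈ W
      rw [hz']
      exact W.smul_mem _ hw
    have hz0 : z ≠ 0 := by
      rintro rfl
      rw [map_zero] at hz'
      exact (smul_ne_zero hd0 hw0) hz'.symm
    exact ⟨⟨⟨z, hzW⟩, 0, fun h => hz0 (congrArg Subtype.val h)⟩⟩
  -- Hecke operators on the lattice
  have hlat : ∀ (x : Fin (rk D) → O), x ∈ lat O W → ∀ t,
      ((Q D t).map (Int.castRingHom O)).mulVec x = χ t • x := by
    intro x hx t
    have h1 := hx t
    ext i
    apply hinj
    have h2 := congrFun h1 i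
    simp only [Matrix.mulVec, dotProduct, Matrix.map_apply, incl_apply, Pi.smul_apply, smul_eq_mul,
      map_sum, map_mul] at h2 ⊢
    rw [← show χ' t = algebraMap O K (χ t) from rfl, ← h2]
    simp
  refine ⟨lat O W, inferInstance, inferInstance, inferInstance, inferInstance, hnt,
    latAct (P D) W hW, latAct_continuous (P D) hinj (P_continuous D) W hW, ?_, ?_, ?_⟩
  · intro ℓ hℓ hℓN hℓS hℓp A hA τ hτ
    refine LinearMap.ext fun m => Subtype.ext ?_
    have h1 := P_frobenius D ℓ hℓ hℓN hℓS hℓp A hA τ hτ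
    set t := CuspForm.heckeAlgebra.T (k := 2) hℓ hℓN hℓS with ht
    have h2 := congrArg (fun M : Matrix (Fin (rk D)) (Fin (rk D)) ℤ_[p] =>
      (M.map (algebraMap ℤ_[p] O)).mulVec (m : Fin (rk D) → O)) h1
    have h3 := hlat _ (latAct (P D) W hW τ m).2 t
    rw [coe_latAct, act_apply] at h3
    have h4 : (P D τ * P D τ - (Q D t).map (algebraMap ℤ ℤ_[p]) * P D τ
        + (ℓ : ℤ_[p]) • (1 : Matrix (Fin (rk D)) (Fin (rk D)) ℤ_[p])).map (algebraMap ℤ_[p] O) =
        (P D τ).map (algebraMap ℤ_[p] O) * (P D τ).map (algebraMap ℤ_[p] O) -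
        (Q D t).map (Int.castRingHom O) * (P D τ).map (algebraMap ℤ_[p] O) +
        (ℓ : O) • (1 : Matrix (Fin (rk D)) (Fin (rk D)) O) := by
      rw [Matrix.map_add _ (map_add _), Matrix.map_sub _ (map_sub _), Matrix.map_mul,
        Matrix.map_mul, ← hmapO]
      congr 1
      ext i j
      rw [Matrix.map_apply, Matrix.smul_apply, Matrix.smul_apply, smul_eq_mul, smul_eq_mul,
        map_mul, map_natCast, Matrix.one_apply, Matrix.one_apply]
      split_ifs <;> simp
    simp only [h4] at h2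
    rw [Matrix.add_mulVec, Matrix.sub_mulVec, ← Matrix.mulVec_mulVec, ← Matrix.mulVec_mulVec, h3,
      Matrix.smul_mulVec, Matrix.one_mulVec, Matrix.map_zero _ (map_zero _),
      Matrix.zero_mulVec] at h2
    rw [sq]
    exact h2
  · intro q hq hqN hqp A hA σ hσ
    refine LinearMap.ext fun m => Subtype.ext ?_
    rw [coe_latAct, act_apply, P_unramified D q hq hqN hqp A hA σ hσ,
      Matrix.map_one _ (map_zero _) (map_one _), Matrix.one_mulVec]
    rfl
  · intro σ hσ
    have h1 : (P D σ - 1) * (P D σ - 1) = 0 := by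
      have h2 := congrArg (LinearMap.toMatrixAlgEquiv (basp D)) hσ
      rw [map_mul, map_sub, map_one, map_zero] at h2
      exact h2
    refine LinearMap.ext fun m => Subtype.ext ?_
    have h3 := congrArg (fun M : Matrix (Fin (rk D)) (Fin (rk D)) ℤ_[p] =>
      (M.map (algebraMap ℤ_[p] O)).mulVec (m : Fin (rk D) → O)) h1
    simp only [Matrix.map_mul, Matrix.map_sub _ (map_sub _), Matrix.map_one _ (map_zero _) (map_one _),
      Matrix.map_zero _ (map_zero _), Matrix.zero_mulVec, ← Matrix.mulVec_mulVec,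
      Matrix.sub_mulVec, Matrix.one_mulVec] at h3
    have h4 : ∀ y : lat O W, (((latAct (P D) W hW σ - 1 : Module.End O (lat O W)) y : lat O W) : Fin (rk D) → O) =
        ((P D σ).map (algebraMap ℤ_[p] O)).mulVec (y : Fin (rk D) → O) -
          (y : Fin (rk D) → O) := by
      intro y
      rw [LinearMap.sub_apply, Submodule.coe_sub, coe_latAct, act_apply, Module.End.one_apply]
    rw [Module.End.mul_apply, h4, h4, Matrix.mulVec_sub]
    rw [Matrix.mulVec_sub] at h3
    exact h3

end Main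

section Rep

/-- **Main theorem.** -/
theorem exists_galoisRepAdic_strong (p : ℕ) [Fact p.Prime]
    (O : Type) [CommRing O] [IsDomain O] [IsDiscreteValuationRing O]
    [IsAdicComplete (maximalIdeal O) O] [Finite (ResidueField O)] [CharZero O]
    (hp : (p : O) ∈ maximalIdeal O)
    (Λ : Type) [AddCommGroup Λ] [Module O Λ] [Module.Free O Λ] [Module.Finite O Λ] [Nontrivial Λ]
    (ρ : G →* Module.End O Λ) (hρ : GaloisActionIsAdicContinuous O ρ)
    (S : Finset ℕ) (hpS : p ∈ S) (a : ℕ → O)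
    (h : ∀ ℓ : ℕ, ℓ.Prime → ℓ ∉ S → ∀ A : ValuationSubring (AlgebraicClosure ℚ),
      A.LiesOverPrime ℓ → ∀ τ : G, A.IsFrobeniusAt τ ℓ →
        ρ τ ^ 2 - a ℓ • ρ τ + (ℓ : O) • (1 : Module.End O Λ) = 0) :
    ∃ (𝒪'' : Type) (_ : CommRing 𝒪'') (_ : IsDomain 𝒪'') (_ : IsDiscreteValuationRing 𝒪'')
        (_ : IsAdicComplete (IsLocalRing.maximalIdeal 𝒪'') 𝒪'')
        (_ : Finite (IsLocalRing.ResidueField 𝒪'')) (_ : CharZero 𝒪'')
        (_ : Algebra O 𝒪'') (_ : Module.Finite O 𝒪'') (_ : IsLocalHom (algebraMap O 𝒪'')),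
      Function.Injective (algebraMap O 𝒪'') ∧
      ∃ (ρ' : GaloisRepAdic 𝒪'') (t : G → O),
        (∀ σ, ρ σ + cyc p O hp σ • ρ σ⁻¹ = t σ • (1 : Module.End O Λ)) ∧
        (∀ σ, LinearMap.charpoly (ρ'.ρ σ) = X ^ 2 - C (algebraMap O 𝒪'' (t σ)) * X +
          C (algebraMap O 𝒪'' (cyc p O hp σ))) ∧
        (∀ ℓ : ℕ, ℓ.Prime → ℓ ∉ S → ∀ A : ValuationSubring (AlgebraicClosure ℚ),
          A.LiesOverPrime ℓ → ∀ τ : G, A.IsFrobeniusAt τ ℓ →
            LinearMap.charpoly (ρ'.ρ τ) =
              X ^ 2 - C (algebraMap O 𝒪'' (a ℓ)) * X + C ((ℓ : 𝒪''))) ∧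
        (∀ q : ℕ, q.Prime → q ≠ p → (∀ P : ValuationSubring (AlgebraicClosure ℚ),
          P.LiesOverPrime q → ∀ σ ∈ P.inertiaSubgroupIn ℚ, ρ σ = 1) → ρ'.IsUnramifiedAt q) := by
  classical
  choose t ht using exists_quad_relation hp ρ hρ S hpS a h
  -- matrices
  let b := Module.finBasis O Λ
  let r := Module.finrank O Λ
  let P : G →* Matrix (Fin r) (Fin r) O :=
    ((LinearMap.toMatrixAlgEquiv b : Module.End O Λ →* Matrix (Fin r) (Fin r) O)).comp ρ
  have hPdef : ∀ g, P g = LinearMap.toMatrixAlgEquiv b (ρ g) := fun g => rfl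
  have hquad : ∀ g, P g + cyc p O hp g • P g⁻¹ = t g • (1 : Matrix (Fin r) (Fin r) O) := by
    intro g
    rw [hPdef, hPdef, ← map_smul, ← map_add, ht, map_smul, map_one]
  have hP : ∀ n : ℕ, ∃ L : IntermediateField ℚ (AlgebraicClosure ℚ), FiniteDimensional ℚ L ∧
      ∀ σ : G, (∀ x ∈ L, σ x = x) → ∀ i j, (P σ - 1) i j ∈ maximalIdeal O ^ n := by
    intro n
    obtain ⟨L, hL, h1⟩ := hρ n
    refine ⟨L, hL, fun σ hσ i j => ?_⟩
    have h2 := map_mem_of_mem_smul_top (b.coord i) _ (h1 σ hσ (b j))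
    have h3 : P σ - 1 = LinearMap.toMatrixAlgEquiv b (ρ σ - 1) := by
      rw [map_sub, map_one, hPdef]
    rw [h3, LinearMap.toMatrixAlgEquiv_apply]
    exact h2
  -- the algebraically closed field
  let K := FractionRing O
  let E := AlgebraicClosure K
  have : CharZero K := charZero_field O K
  have : CharZero E := charZero_of_injective_algebraMap (algebraMap K E).injective
  have hr : 0 < r := Module.finrank_pos
  have : Nonempty (Fin r) := ⟨⟨0, hr⟩⟩
  obtain ⟨W, hW, hdim⟩ := exists_invariant (E := E) (V := Fin r → E) two_ne_zero (act P E)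
    (fun g => algebraMap O E (t g)) ((algebraMap O E : O →* E).comp (cyc p O hp))
    (act_quad P (cyc p O hp) t E hquad)
  obtain ⟨L, hLfin, hspan⟩ := exists_field_of_definition O K E W
  let O₂ := integralClosure O L
  have hloc : IsLocalRing O₂ := isLocalRing_integralClosure O K L
  have hdvr : IsDiscreteValuationRing O₂ := isDiscreteValuationRing_integralClosure O K L
  have hlh : IsLocalHom (algebraMap O O₂) := isLocalHom_integralClosure O K L
  have hinj : Function.Injective (algebraMap O₂ E) := by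
    intro x y hxy
    exact Subtype.ext (Subtype.ext hxy)
  have htow : IsScalarTower O O₂ E := IsScalarTower.of_algebraMap_eq (fun x => by
    have h1 : algebraMap O E x = algebraMap K E (algebraMap O K x) :=
      IsScalarTower.algebraMap_apply O K E x
    rw [h1]
    rfl)
  obtain ⟨ρ', hchar, hker⟩ := exists_galoisRepAdic_core (O := O) (O₂ := O₂) (E := E) P
    (cyc p O hp) t hinj hquad hP (exists_finite_cyc hp) W hW (hspan hLfin) hdim
  refine ⟨O₂, inferInstance, inferInstance, hdvr, isAdicComplete_integralClosure O K L,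
    finite_residueField_integralClosure O K L, charZero_integralClosure O K L, inferInstance,
    finite_integralClosure O K L, hlh, algebraMap_integralClosure_injective O K L, ρ', t, ht, hchar, ?_, ?_⟩
  · intro ℓ hℓ hℓS A hA τ hτ
    have hℓp : ℓ ≠ p := fun e => hℓS (e ▸ hpS)
    have hcyc := cyc_frobenius (O := O) hp hℓ hℓp hA hτ
    have hrel := quad_inv ρ τ (a ℓ) ℓ (h ℓ hℓ hℓS A hA τ hτ)
    have ht' := ht τ
    rw [hcyc, hrel] at ht'
    have hta : t τ = a ℓ := by
      have h1 := congrArg (fun f : Module.End O Λ => b.repr (f (b ⟨0, hr⟩)) ⟨0, hr⟩) ht'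
      simpa using h1.symm
    rw [hchar, hta, hcyc, map_natCast]
  · intro q hq hqp hin A hA σ hσ
    refine hker σ ?_ (cyc_inertia hp hq hqp hA hσ)
    rw [hPdef, hin A hA σ hσ, map_one]

end Rep

end Fermat.Agent.HGAssembly
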